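import Fermat.Agent.LT.T3.H893.NIntSpec

/-!
# Row LT, tower T3, leaf T3.18a.4.1 = N.1 `IwasawaFormC` (helper543)

OFF-MAIN.  `iwasawaFormC_of_h543 : T1.IwasawaC K → AS.N893.IwasawaFormC K`, VERBATIM
(`LT/T3/H893/NIntSpec.lean`, helper893; `T1.IwasawaC` of `LT/T1/Spec.lean`, helper54), and
`iwasawaFormC_of_T1Out_h543 : T1.T1Out K → IwasawaFormC K`.

Proof (pure algebra).  `g = b₁ κ₁`, `g' = b' κ'` (Iwasawa), `b₁ = [[s₁, y₁], [0, t₁]]`,
`b' = [[s', y'], [0, t']]` (the diagonal entries of an upper triangular element of `GL₂` are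
units).  With `k₁ = κ₁⁻¹`, `k' = κ'`, `c₁ = s₁⁻¹ s'`, `c₂ = t₁⁻¹ t'`, `a = s₁⁻¹ t'`,
`r_j = s₁⁻¹ αʲ y' - s₁⁻¹ y₁ t₁⁻¹ t'`:

    b₁ · [[c₁ αʲ, a x + r_j], [0, c₂]] = n(x) · diag(αʲ, 1) · b'.
-/

set_option autoImplicit false
set_option linter.style.haveILetI false
set_option linter.unusedSectionVars false

open IsDedekindDomain NumberField
open Fermat.Agent.LT.H556.A0 Fermat.Agent.LT.T3 Fermat.Agent.LT.T3.AS
open Fermat.Agent.LT.T3.AS.N893

noncomputable section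

namespace Fermat.Agent.LT.T3.H543

/-! ## Upper triangular elements of `GL₂(R)` -/

section Ring

variable {R : Type*} [CommRing R]

theorem upperGL_coe543 (c₁ c₂ : Rˣ) (x : R) :
    ((upperGL c₁ c₂ x : GL (Fin 2) R) : Matrix (Fin 2) (Fin 2) R)
      = !![(c₁ : R), x; 0, (c₂ : R)] := rfl

/-- An upper triangular element of `GL₂(R)` is `[[s, y], [0, t]]` with units `s`, `t`. -/
theorem exists_upperGL543 (b : GL (Fin 2) R)
    (hb : (b : Matrix (Fin 2) (Fin 2) R) 1 0 = 0) :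
    ∃ (s t : Rˣ) (y : R), b = upperGL s t y := by
  have hdet : IsUnit ((b : Matrix (Fin 2) (Fin 2) R) 0 0 * (b : Matrix (Fin 2) (Fin 2) R) 1 1) := by
    have h1 : IsUnit (b : Matrix (Fin 2) (Fin 2) R).det :=
      (Matrix.isUnit_iff_isUnit_det _).mp b.isUnit
    rw [Matrix.det_fin_two, hb, mul_zero, sub_zero] at h1
    exact h1
  obtain ⟨s, hs⟩ := isUnit_of_mul_isUnit_left hdet
  obtain ⟨t, ht⟩ := isUnit_of_mul_isUnit_right hdet
  refine ⟨s, t, (b : Matrix (Fin 2) (Fin 2) R) 0 1, ?_⟩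
  apply Units.ext
  rw [upperGL_coe543]
  ext i j
  fin_cases i <;> fin_cases j
  · exact hs.symm
  · rfl
  · exact hb
  · exact ht.symm

end Ring

/-! ## The torus `diag(α, 1)` -/

section Field

variable (K : Type) [Field K] [NumberField K]

/-- `α ↦ diag(α, 1)` as a homomorphism. -/
def torHom543 : Kˣ →* G K where
  toFun := torK K
  map_one' := by
    apply Units.ext
    rw [torK_coe]
    ext i j
    fin_cases i <;> fin_cases j <;> simp [emb]
  map_mul' := fun α β => by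
    apply Units.ext
    rw [Units.val_mul, torK_coe, torK_coe, torK_coe]
    ext i j
    fin_cases i <;> fin_cases j <;> simp [Matrix.mul_apply, Fin.sum_univ_two, emb]

theorem torK_zpow543 (α : Kˣ) (j : ℤ) : torK K α ^ j = torK K (α ^ j) :=
  (map_zpow (torHom543 K) α j).symm

theorem ratUnit_zpow_coe543 (α : Kˣ) (j : ℤ) :
    ((T1.ratUnit K α ^ j : (Adl K)ˣ) : Adl K) = emb K ((α ^ j : Kˣ) : K) := by
  rw [← map_zpow]
  rfl

/-! ## `K⁰` is stable under inverse -/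

theorem isStdCompact_inv543 {k : G K} (hk : T1.IsStdCompact K k) : T1.IsStdCompact K k⁻¹ := by
  obtain ⟨h1, h2⟩ := hk
  refine ⟨fun v => ⟨(h1 v).2, by rw [inv_inv]; exact (h1 v).1⟩, fun w => ?_⟩
  obtain ⟨hu, hd⟩ := h2 w
  rw [← infGL_coe] at hu hd
  rw [← infGL_coe, map_inv]
  set U : GL (Fin 2) ℂ := infGL K w k with hU
  have hinv : ((U⁻¹ : GL (Fin 2) ℂ) : Matrix (Fin 2) (Fin 2) ℂ)
      = (U : Matrix (Fin 2) (Fin 2) ℂ).conjTranspose := by
    calc ((U⁻¹ : GL (Fin 2) ℂ) : Matrix (Fin 2) (Fin 2) ℂ)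
        = ((U⁻¹ : GL (Fin 2) ℂ) : Matrix (Fin 2) (Fin 2) ℂ)
            * ((U : Matrix (Fin 2) (Fin 2) ℂ) * (U : Matrix (Fin 2) (Fin 2) ℂ).conjTranspose) := by
          rw [hu, mul_one]
      _ = (((U⁻¹ * U : GL (Fin 2) ℂ)) : Matrix (Fin 2) (Fin 2) ℂ)
            * (U : Matrix (Fin 2) (Fin 2) ℂ).conjTranspose := by
          rw [Units.val_mul, mul_assoc]
      _ = (U : Matrix (Fin 2) (Fin 2) ℂ).conjTranspose := by
          rw [inv_mul_cancel, Units.val_one, one_mul]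
  refine ⟨?_, fun hw => ?_⟩
  · rw [hinv, Matrix.conjTranspose_conjTranspose]
    exact mul_eq_one_comm.mp hu
  · have h3 : ((U⁻¹ : GL (Fin 2) ℂ) : Matrix (Fin 2) (Fin 2) ℂ).det
        * (U : Matrix (Fin 2) (Fin 2) ℂ).det = 1 := by
      rw [← Matrix.det_mul, ← Units.val_mul, inv_mul_cancel, Units.val_one, Matrix.det_one]
    rw [hd hw, mul_one] at h3
    exact h3

/-! ## The leaf -/

/-- The matrix identity behind N.1. -/
theorem upper_identity543 (α : Kˣ) (j : ℤ) (s₁ t₁ s' t' : (Adl K)ˣ) (y₁ y' x : Adl K) :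
    upperGL s₁ t₁ y₁
        * upperGL (s₁⁻¹ * s' * T1.ratUnit K α ^ j) (t₁⁻¹ * t')
            (((s₁⁻¹ * t' : (Adl K)ˣ) : Adl K) * x
              + (((s₁⁻¹ : (Adl K)ˣ) : Adl K) * emb K ((α ^ j : Kˣ) : K) * y'
                - ((s₁⁻¹ : (Adl K)ˣ) : Adl K) * y₁ * ((t₁⁻¹ : (Adl K)ˣ) : Adl K) * (t' : Adl K)))
      = unip K x * torK K α ^ j * upperGL s' t' y' := by
  rw [torK_zpow543]
  apply Units.ext
  simp only [Units.val_mul, upperGL_coe543, torK_coe, unip_coe, ratUnit_zpow_coe543]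
  ext i k
  fin_cases i <;> fin_cases k
  · simp only [Fin.zero_eta, Fin.isValue, Matrix.mul_apply, Fin.sum_univ_two, Matrix.of_apply,
      Matrix.cons_val', Matrix.cons_val_zero, Matrix.cons_val_fin_one, Matrix.cons_val_one]
    have h := s₁.mul_inv
    linear_combination ((s' : Adl K) * emb K ((α ^ j : Kˣ) : K)) * h
  · simp only [Fin.zero_eta, Fin.isValue, Fin.mk_one, Matrix.mul_apply, Fin.sum_univ_two,
      Matrix.of_apply, Matrix.cons_val', Matrix.cons_val_zero, Matrix.cons_val_fin_one,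
      Matrix.cons_val_one]
    have h := s₁.mul_inv
    linear_combination ((t' : Adl K) * x + emb K ((α ^ j : Kˣ) : K) * y'
      - y₁ * ((t₁⁻¹ : (Adl K)ˣ) : Adl K) * (t' : Adl K)) * h
  · simp [Matrix.mul_apply, Fin.sum_univ_two]
  · simp only [Fin.mk_one, Fin.isValue, Matrix.mul_apply, Fin.sum_univ_two, Matrix.of_apply,
      Matrix.cons_val', Matrix.cons_val_zero, Matrix.cons_val_fin_one, Matrix.cons_val_one]
    have h := t₁.mul_inv
    linear_combination (t' : Adl K) * h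

/-- **N.1 = IWASAWA FORM**, from the Iwasawa decomposition of tower T1. -/
theorem iwasawaFormC_of_h543 (hI : T1.IwasawaC K) : IwasawaFormC K := by
  intro α g g'
  obtain ⟨b₁, κ₁, hb₁, hκ₁, hg⟩ := hI g
  obtain ⟨b', κ', hb', hκ', hg'⟩ := hI g'
  obtain ⟨s₁, t₁, y₁, rfl⟩ := exists_upperGL543 b₁ hb₁
  obtain ⟨s', t', y', rfl⟩ := exists_upperGL543 b' hb'
  refine ⟨κ₁⁻¹, κ', s₁⁻¹ * s', t₁⁻¹ * t', s₁⁻¹ * t', isStdCompact_inv543 K hκ₁, hκ', fun j => ?_⟩
  refine ⟨((s₁⁻¹ : (Adl K)ˣ) : Adl K) * emb K ((α ^ j : Kˣ) : K) * y'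
      - ((s₁⁻¹ : (Adl K)ˣ) : Adl K) * y₁ * ((t₁⁻¹ : (Adl K)ˣ) : Adl K) * (t' : Adl K),
    fun x => ?_⟩
  have h := upper_identity543 K α j s₁ t₁ s' t' y₁ y' x
  rw [hg, hg', mul_inv_rev]
  calc κ₁⁻¹ * (upperGL s₁ t₁ y₁)⁻¹ * unip K x * torK K α ^ j * (upperGL s' t' y' * κ')
      = κ₁⁻¹ * ((upperGL s₁ t₁ y₁)⁻¹ * (unip K x * torK K α ^ j * upperGL s' t' y')) * κ' := by
        group
    _ = _ := by rw [← h, inv_mul_cancel_left]

/-- **N.1** from the output of tower T1. -/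
theorem iwasawaFormC_of_T1Out_h543 (h : T1.T1Out K) : IwasawaFormC K :=
  iwasawaFormC_of_h543 K h.iwasawa

end Field

end Fermat.Agent.LT.T3.H543

end
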